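/-
Row 37 (S43), block E0 (a), sub-block SLOPE (architect helper73).  DEFINITIONS AND NODES.

`K0 A` = the inertia field of `A`, `A0 A = A ∩ K0 A` (uniformiser `q`, residue field alg. closed).
Level `L q` with `L = M * 4`.  `Va = VV (A0 A) hc 0` = Gauss valuation ring of `FK (K0 A) (L q)`,
`Vb = VV (A0 A) hc 1 = Va ∘ w_q`.

* `IsRegModel`  : every place `w` of `k(X₀(L))` is the centre of a regular local ring of the model:
                  a node `x y = q` with branches `Va`, `Vb`, or a smooth point of the component `Va`.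
* `NodeModelQ`  : the regular model exists (`q ≥ 5`: `S44.X.Model.isNodeModel`; `q = 3`: port).
* `NodeVert4`   : `T_ℓ u₀ / u₀ ^ (ℓ + 1)` is defined over `K0 A` and is a unit for `Va` and for `Vb`.
* `NodeDescQ`   : descent of `n ∣ ord` from level `M * 4` to level `M` (residue characteristic `q`).
-/
import Fermat.Agent.S43.E0.Maz.Nodes
import Fermat.Agent.S44.X.Model.Top

set_option autoImplicit false

noncomputable section

namespace Fermat.Agent.S43.E0.MazSlope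

open ModularCurve AlgebraicCurve Fermat.Agent.S24 Fermat.Agent.GAL Fermat.Agent.S44
  Fermat.Agent.S44.X Fermat.Agent.S44.X.Model Fermat.Agent.S44.PL Fermat.Agent.S18
  Fermat.Agent.BAD.LevelQ.Mod Fermat.Agent.Lib.InertiaField Fermat.Agent.S36.BP

/-- **The regular model of level `L q` over the inertia field, seen from the component `Va`.** -/
def IsRegModel (A : ValuationSubring S44.Qb) (q L : ℕ) [NeZero q] [NeZero L]
    (Va Vb : ValuationSubring (FK (K0 A) (L * q))) : Prop :=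
  ∀ w : Place (kA A) (Fk A L), ∃ R : Subring (FK (K0 A) (L * q)),
    Centred (algebraMap (K0 A) S44.Qb) R w ∧
      ((∃ x y, IsNode (A0 A) q R Va Vb x y) ∨ IsSmooth (A0 A) q R Va)

/-- **Node MODEL-Q.** -/
def NodeModelQ : Prop :=
  ∀ (q : ℕ) [NeZero q] (M : ℕ) [NeZero M], q.Prime → q ≠ 2 → ¬ q ∣ M →
    ∀ (hc : (M * 4).Coprime q) (A : ValuationSubring S44.Qb) [IsDiscreteValuationRing (A0 A)],
      A.LiesOverPrime q → IsRegModel A q (M * 4) (VV (A0 A) hc 0) (VV (A0 A) hc 1)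

/-- **Node VERT4.** -/
def NodeVert4 : Prop :=
  ∀ (q : ℕ) [NeZero q] (L : ℕ) [NeZero L], q.Prime → ∀ (hc : L.Coprime q)
    (A : ValuationSubring S44.Qb) [IsDiscreteValuationRing (A0 A)], A.LiesOverPrime q →
    ∀ (ℓ : ℕ) [NeZero ℓ], ℓ.Prime → ¬ ℓ ∣ L * q → ∀ H : E.HeckeOp (L * q) ℓ,
    ∀ u₀ : FK (K0 A) (L * q), u₀ ≠ 0 →
      ∃ u₁ : FK (K0 A) (L * q),
        BAD.Bridge.bc A (L * q) u₁ =
          H.T (BAD.Bridge.bc A (L * q) u₀) / BAD.Bridge.bc A (L * q) u₀ ^ (ℓ + 1) ∧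
        (VV (A0 A) hc 0).valuation u₁ = 1 ∧ (VV (A0 A) hc 1).valuation u₁ = 1

/-- **Node DESC-Q.** -/
def NodeDescQ : Prop :=
  ∀ (q M : ℕ) [NeZero M], q.Prime → q ≠ 2 → ¬ q ∣ M →
    ∀ A : ValuationSubring S44.Qb, A.LiesOverPrime q → ∀ p k : ℕ, p.Prime → 5 ≤ p →
    ∀ f : Fk A M,
      (∀ w : Place (kA A) (Fk A (M * 4)), ((p ^ k : ℕ) : ℤ) ∣ w.ord (inclFk A M 4 f)) →
        ∀ v : Place (kA A) (Fk A M), ((p ^ k : ℕ) : ℤ) ∣ v.ord f

end Fermat.Agent.S43.E0.MazSlope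

end
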