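/-
Row 37 (S43), block E0 (a), sub-block SLOPE, leaf DESC-Q: `NodeDescQ` is proved.
Port of `S44/X/Desc/{Step,Modular,Main}.lean` with TWO parameters: the exponent `p ^ k` and the
residue characteristic `q` (odd).  The tower `k(X₀(M)) < k(X₀(2M)) < k(X₀(4M))` is generated by
roots `y` of cubics `(1 + 256 y)³ = a y`; the ramification indices are `≤ 3 < 5 ≤ p`.
-/
import Fermat.Agent.S43.E0.Maz.Slope.Defs
import Fermat.Agent.S44.X.Desc.Main

set_option autoImplicit false

noncomputable section

namespace Fermat.Agent.S43.E0.MazSlope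

open AlgebraicCurve ModularCurve Polynomial Fermat.Agent.S44 Fermat.Agent.S44.X
  Fermat.Agent.S44.X.Desc Fermat.Agent.Lib.Hauptmodul

section Abstract

variable {K F F' : Type*} [Field K] [Field F] [Field F'] [Algebra K F] [Algebra K F']

/-- **Descent of `p ^ k ∣ ord` along a separable extension of degree `< p`.** -/
theorem descQ_dvd_ord_of_forall_dvd_ord [Algebra F F'] [IsScalarTower K F F'] {p : ℕ}
    (hp : p.Prime) (k : ℕ) [FiniteDimensional F F'] [Algebra.IsSeparable F F']
    (hdeg : Module.finrank F F' < p) (f : F)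
    (h : ∀ w : Place K F', ((p ^ k : ℕ) : ℤ) ∣ w.ord (algebraMap F F' f)) (v : Place K F) :
    ((p ^ k : ℕ) : ℤ) ∣ v.ord f := by
  obtain ⟨w, rfl⟩ := exists_restrict_eq F' v
  have h1 := h w
  rw [w.ord_restrict] at h1
  have he : ¬ p ∣ w.ramificationIndex F := by
    intro hd
    have h2 := Nat.le_of_dvd (w.ramificationIndex_pos (F := F)) hd
    have h3 := ramificationIndex_le_finrank (F := F) w
    omega
  have hcop : Nat.Coprime (p ^ k) (w.ramificationIndex F) :=
    Nat.Coprime.pow_left k ((Nat.Prime.coprime_iff_not_dvd hp).2 he)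
  exact (Nat.isCoprime_iff_coprime.2 hcop).dvd_of_dvd_mul_left h1

end Abstract

section Inter

variable {K Ω : Type*} [Field K] [Field Ω] [Algebra K Ω]

/-- a root of the cubic `(1 + 256 X)³ - a X` is separable in odd characteristic -/
theorem descQ_isSeparable {q : ℕ} (hq : q.Prime) (hq2 : q ≠ 2) {E : Type*} [Field E] [CharP E q]
    [Algebra E Ω] {y : Ω} {a : E} (hy : (1 + 256 * y) ^ 3 = algebraMap E Ω a * y) :
    IsSeparable E y := by
  obtain ⟨P, hPdef⟩ : ∃ P : E[X], P = (1 + 256 * X) ^ 3 - C a * X := ⟨_, rfl⟩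
  have hroot : aeval y P = 0 := by
    rw [hPdef]
    simp only [map_sub, map_pow, map_add, map_one, map_mul, aeval_X, aeval_C, map_ofNat]
    rw [hy]
    exact sub_self _
  have hP0 : P ≠ 0 := by
    intro h0
    have h1 := congrArg (fun Q => Q.coeff 0) h0
    rw [hPdef] at h1
    simp [coeff_zero_eq_eval_zero] at h1
  have hPdeg : P.natDegree ≤ 3 := by
    rw [hPdef]
    compute_degree
  have hint : IsIntegral E y := isAlgebraic_iff_isIntegral.1 ⟨P, hP0, hroot⟩
  have hmin : (minpoly E y).natDegree ≤ 3 :=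
    (natDegree_le_of_dvd (minpoly.dvd E y hroot) hP0).trans hPdeg
  have h3 : q = 3 ∨ 3 < q := by
    have := hq.two_le
    omega
  rcases h3 with rfl | h3
  · -- characteristic `3`
    have h30 : (3 : E) = 0 := by
      have := CharP.cast_eq_zero E 3
      exact_mod_cast this
    by_cases ha : a = 0
    · -- `y = - 1 / 256` lies in `E`
      have h1 : 1 + 256 * y = 0 := by
        rw [ha, map_zero, zero_mul] at hy
        exact pow_eq_zero_iff (by norm_num) |>.1 hy
      have h256 : (256 : E) = 1 := by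
        have : (256 : E) = 3 * 85 + 1 := by norm_num
        rw [this, h30, zero_mul, zero_add]
      have h256' : (256 : Ω) = 1 := by
        have h := congrArg (algebraMap E Ω) h256
        rwa [map_ofNat, map_one] at h
      have hy1 : y = algebraMap E Ω (-1) := by
        rw [h256', one_mul] at h1
        rw [map_neg, map_one]
        exact (neg_eq_of_add_eq_zero_right h1).symm
      rw [hy1]
      exact isSeparable_algebraMap (-1)
    · have hder : derivative P = C (-a) := by
        rw [hPdef]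
        simp only [derivative_sub, derivative_pow, derivative_add, derivative_one, derivative_mul,
          derivative_C, derivative_X, derivative_ofNat]
        have h3' : ((3 : ℕ) : E[X]) = 0 := by
          rw [← C_eq_natCast]
          have : ((3 : ℕ) : E) = 0 := by exact_mod_cast h30
          rw [this, C_0]
        rw [C_eq_natCast, h3']
        simp
      have hsep : P.Separable := by
        rw [separable_def, hder]
        refine ⟨0, C (-a)⁻¹, ?_⟩
        rw [zero_mul, zero_add, ← C_mul, inv_mul_cancel₀ (neg_ne_zero.2 ha), C_1]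
      exact hsep.of_dvd (minpoly.dvd E y hroot)
  · exact separable_of_natDegree_lt q (minpoly.irreducible hint) (by omega)

/-- **A cubic step.** -/
theorem descQ_of_ext {p q : ℕ} (hp : p.Prime) (h3 : 3 < p) (k : ℕ) (hq : q.Prime) (hq2 : q ≠ 2)
    [CharP K q] {E : IntermediateField K Ω} {y a : Ω} (ha : a ∈ E)
    (hy : (1 + 256 * y) ^ 3 = a * y) {f : Ω}
    (h : DivAll (p ^ k) (ext E y) f) : DivAll (p ^ k) E f := by
  intro hf v
  have hchar : CharP E q := charP_of_injective_algebraMap (algebraMap K E).injective q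
  obtain ⟨P, hPdef⟩ : ∃ P : (↥E)[X], P = (1 + 256 * X) ^ 3 - C (⟨a, ha⟩ : E) * X := ⟨_, rfl⟩
  have hroot : aeval y P = 0 := by
    rw [hPdef]
    simp only [map_sub, map_pow, map_add, map_one, map_mul, aeval_X, aeval_C, map_ofNat]
    rw [hy]
    exact sub_self _
  have hP0 : P ≠ 0 := by
    intro h0
    have h1 := congrArg (fun Q => Q.coeff 0) h0
    rw [hPdef] at h1
    simp [coeff_zero_eq_eval_zero] at h1
  have hPdeg : P.natDegree ≤ 3 := by
    rw [hPdef]
    compute_degree
  have hint : IsIntegral E y := isAlgebraic_iff_isIntegral.1 ⟨P, hP0, hroot⟩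
  have hmin : (minpoly E y).natDegree ≤ 3 :=
    (natDegree_le_of_dvd (minpoly.dvd E y hroot) hP0).trans hPdeg
  have hfd : FiniteDimensional E (IntermediateField.adjoin E {y}) :=
    IntermediateField.adjoin.finiteDimensional hint
  have hsep : Algebra.IsSeparable E (IntermediateField.adjoin E {y}) :=
    (IntermediateField.isSeparable_adjoin_simple_iff_isSeparable E Ω).2
      (descQ_isSeparable hq hq2 (E := E) (a := ⟨a, ha⟩) hy)
  have hfin : Module.finrank E (IntermediateField.adjoin E {y}) < p := by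
    rw [IntermediateField.adjoin.finrank hint]
    omega
  refine descQ_dvd_ord_of_forall_dvd_ord (K := K) (F' := ↥(IntermediateField.adjoin E {y})) hp k
    hfin ⟨f, hf⟩ (fun w => ?_) v
  exact dvd_ord_algHom (extToAdjoin E y) (extToAdjoin_isIntegral E y)
    (⟨f, le_ext E y hf⟩ : ↥(ext E y)) (fun v' => h _ v') w

/-- **A tower of cubic steps.**  `B` is generated over `E` by the elements of the list `l`. -/
theorem descQ_of_tower {p q : ℕ} (hp : p.Prime) (h3 : 3 < p) (k : ℕ) (hq : q.Prime) (hq2 : q ≠ 2)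
    [CharP K q] {f : Ω} (l : List Ω) :
    ∀ (E B : IntermediateField K Ω), (∀ y ∈ l, ∃ a ∈ E, (1 + 256 * y) ^ 3 = a * y) →
      (∀ B' : IntermediateField K Ω, E ≤ B' → (∀ y ∈ l, y ∈ B') → B ≤ B') → E ≤ B →
      (∀ y ∈ l, y ∈ B) → DivAll (p ^ k) B f → DivAll (p ^ k) E f := by
  induction l with
  | nil =>
    intro E B _ hgen hEB _ h
    have hBE : B = E := le_antisymm (hgen E le_rfl (by simp)) hEB
    rwa [hBE] at h
  | cons y l ih =>
    intro E B hcub hgen hEB hl h
    obtain ⟨a, ha, hy⟩ := hcub y (by simp)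
    refine descQ_of_ext hp h3 k hq hq2 ha hy ?_
    refine ih (ext E y) B ?_ ?_ (ext_le hEB (hl y (by simp))) (fun z hz => hl z (by simp [hz])) h
    · intro z hz
      obtain ⟨b, hb, hz'⟩ := hcub z (by simp [hz])
      exact ⟨b, le_ext E y hb, hz'⟩
    · intro B' hB' hl'
      refine hgen B' ((le_ext E y).trans hB') ?_
      intro z hz
      rcases List.mem_cons.1 hz with rfl | hz
      · exact hB' (mem_ext_self E z)
      · exact hl' z hz

/-- a set version of the tower lemma -/
theorem descQ_of_finite {p q : ℕ} (hp : p.Prime) (h3 : 3 < p) (k : ℕ) (hq : q.Prime) (hq2 : q ≠ 2)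
    [CharP K q] {f : Ω} {S : Set Ω} (hS : S.Finite) (E B : IntermediateField K Ω)
    (hcub : ∀ y ∈ S, ∃ a ∈ E, (1 + 256 * y) ^ 3 = a * y)
    (hgen : ∀ B' : IntermediateField K Ω, E ≤ B' → (∀ y ∈ S, y ∈ B') → B ≤ B') (hEB : E ≤ B)
    (hSB : ∀ y ∈ S, y ∈ B) (h : DivAll (p ^ k) B f) : DivAll (p ^ k) E f := by
  have hmem : ∀ y, y ∈ hS.toFinset.toList ↔ y ∈ S := fun y => by simp
  refine descQ_of_tower hp h3 k hq hq2 hS.toFinset.toList E B
    (fun y hy => hcub y ((hmem y).1 hy)) ?_ hEB (fun y hy => hSB y ((hmem y).1 hy)) h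
  intro B' hB' hl
  exact hgen B' hB' fun y hy => hl y ((hmem y).2 hy)

end Inter

section Modular

variable (K : Type*) [Field K]

/-- **Descent from level `2 M` to level `M`.** -/
theorem descQ_double {p q : ℕ} (hp : p.Prime) (h3 : 3 < p) (k : ℕ) (hq : q.Prime) (hq2 : q ≠ 2)
    [CharP K q] (M : ℕ) [NeZero M] {f : LaurentSeries K}
    (h : DivAll (p ^ k) (modularFunctionFieldFullC K (M * 2)) f) :
    DivAll (p ^ k) (modularFunctionFieldFullC K M) f := by
  refine descQ_of_finite hp h3 k hq hq2 (gens_finite K M) _ _ ?_ ?_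
    (full_degeneracyC_le K (dvd_mul_right M 2)) ?_ h
  · rintro _ ⟨e, he, hd, rfl⟩
    exact ⟨_, jqModCd_mem_full K M hd, y2_cubic K e⟩
  · intro B' hB' hy
    rw [modularFunctionFieldFullC, IntermediateField.adjoin_le_iff]
    rintro _ ⟨d, hd0, hd, rfl⟩
    by_cases hdM : d ∣ M
    · exact hB' (jqModCd_mem_full K M hdM)
    · -- `d = 2 e` with `e ∣ M`
      have h2d : 2 ∣ d := by
        by_contra h2
        have hcop : Nat.Coprime d 2 :=
          (Nat.coprime_comm.1 ((Nat.Prime.coprime_iff_not_dvd Nat.prime_two).2 h2))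
        exact hdM (hcop.dvd_of_dvd_mul_right hd)
      obtain ⟨e, rfl⟩ := h2d
      have he0 : e ≠ 0 := by
        rintro rfl
        exact NeZero.ne (2 * 0) rfl
      have : NeZero e := ⟨he0⟩
      have heM : e ∣ M := by
        rw [mul_comm M 2] at hd
        exact Nat.dvd_of_mul_dvd_mul_left (by norm_num) hd
      have hye : y2 K e ∈ B' := hy _ ⟨e, inferInstance, heM, rfl⟩
      have hrel := y2_double K e
      have hy0 := y2_ne_zero K e
      have hj : qExpand K (e * 2) (jqModC K) = (1 + 16 * y2 K e) ^ 3 / y2 K e ^ 2 := by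
        rw [eq_div_iff (pow_ne_zero 2 hy0), hrel]
      have hcomm : qExpand K (2 * e) (jqModC K) = qExpand K (e * 2) (jqModC K) :=
        qExpand_congr K (mul_comm 2 e) _
      show qExpand K (2 * e) (jqModC K) ∈ B'
      rw [hcomm, hj]
      have h16 : (16 : LaurentSeries K) ∈ B' := ofNat_mem_intermediateField K B' 16
      exact div_mem (pow_mem (add_mem (one_mem _) (mul_mem h16 hye)) 3) (pow_mem hye 2)
  · rintro _ ⟨e, he, hd, rfl⟩
    exact y2_mem K e M hd

/-- **Descent from level `4 M` to level `M`.** -/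
theorem descQ_four {p q : ℕ} (hp : p.Prime) (h3 : 3 < p) (k : ℕ) (hq : q.Prime) (hq2 : q ≠ 2)
    [CharP K q] (M : ℕ) [NeZero M] {f : LaurentSeries K}
    (h : DivAll (p ^ k) (modularFunctionFieldFullC K (M * 4)) f) :
    DivAll (p ^ k) (modularFunctionFieldFullC K M) f := by
  apply descQ_double K hp h3 k hq hq2 M
  apply descQ_double K hp h3 k hq hq2 (M * 2)
  rwa [Nat.mul_assoc]

end Modular

/-- **Node DESC-Q.** -/
theorem nodeDescQ : NodeDescQ := by
  intro q M _ hq hq2 _ A hA p k hp h5 f h v
  have hchar : CharP (kA A) q := charP_kA hq A hA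
  have key : DivAll (p ^ k) (modularFunctionFieldFullC (kA A) (M * 4))
      (f : LaurentSeries (kA A)) := by
    intro hf w
    have h1 := h w
    have h2 : inclFk A M 4 f = ⟨(f : LaurentSeries (kA A)), hf⟩ :=
      Subtype.ext (coe_inclFk A M 4 f)
    rw [h2] at h1
    exact h1
  exact descQ_four (kA A) hp (by omega) k hq hq2 M key f.2 v

end Fermat.Agent.S43.E0.MazSlope

end
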