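/-
Row 37 (S43), block E0 (a), sub-block SLOPE: **Node VERT4** (helper216, blueprint of helper73).
`e := T_ℓ u₀ / u₀ ^ (ℓ + 1)` is defined over the inertia field and has vertical orders `(0, 0)`.
-/
import Fermat.Agent.S43.E0.Maz.Slope.Defs
import Fermat.Agent.S36.Desc.Model
import Fermat.Agent.S44.X.Model.GaussFN
import Fermat.Agent.S44.X.Cover.Hecke.Gauss
import Fermat.Agent.S44.X.Cover.TW.Main
import Fermat.Agent.GAL.E.HeckeBasic

set_option autoImplicit false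

noncomputable section

namespace Fermat.Agent.S43.E0.MazSlope

open ModularCurve AlgebraicCurve Fermat.Agent.S24 Fermat.Agent.S24.B Fermat.Agent.GAL
  Fermat.Agent.GAL.E Fermat.Agent.C1 Fermat.Agent.Lib.InertiaField
  Fermat.Agent.BAD.LevelQ.Mod

/-- **Gauss norm of `T_ℓ x / x ^ (ℓ + 1)`**: it is a unit for the Gauss valuation. -/
theorem redS_hecke_div {A : ValuationSubring Kbar} {q : ℕ} (hq : q.Prime)
    (hA : A.LiesOverPrime q) {N ℓ : ℕ} [NeZero ℓ] (H : HeckeOp N ℓ) {x : FN N} (hx : x ≠ 0) :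
    ∃ (a : Aˣ) (r : LaurentSeries (IsLocalRing.ResidueField A)),
      RedS A ((H.T x / x ^ (ℓ + 1) : FN N) : LaurentSeries Kbar) ((a : A) : Kbar) r := by
  have hℓ : ℓ ≠ 0 := NeZero.ne ℓ
  have : NeZero (ℓ * ℓ) := ⟨mul_ne_zero hℓ hℓ⟩
  obtain ⟨c, r, h1⟩ := exists_redS hq hA x hx
  have hTx : H.T x ≠ 0 := ((IsUnit.mk0 x hx).map H.T).ne_zero
  obtain ⟨c', r', h1'⟩ := exists_redS hq hA (H.T x) hTx
  have h2 := h1.map_qExpand (ℓ * ℓ)
  have hz : ∀ b : ℕ, ∃ z : Aˣ, ((z : A) : Kbar) = ((zetaK ℓ ^ b : Kbarˣ) : Kbar) := fun b =>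
    exists_unit_of_pow_eq_one A _ ℓ hℓ (by
      rw [← pow_mul, mul_comm, pow_mul, (isPrimitiveRoot_zetaK ℓ).pow_eq_one, one_pow])
  choose z hz using hz
  have h3 : ∀ b ∈ Finset.range ℓ, RedS A (twist (zetaK ℓ ^ b) (x : LaurentSeries Kbar)) c
      (twist (Units.map (IsLocalRing.residue A : A →* _) (z b)) r) :=
    fun b _ => h1.map_twist _ (z b) (hz b)
  have h4 := RedS.prod (Finset.range ℓ) h3
  have h5 := h2.mul h4
  rw [← H.qExpand_T x] at h5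
  obtain ⟨a, ha, -⟩ := (h1'.map_qExpand ℓ).unique h5
  rw [Finset.prod_const, Finset.card_range, ← pow_succ'] at ha
  have h6 := h1'.div (h1.pow (ℓ + 1))
  have hc : c ^ (ℓ + 1) ≠ 0 := pow_ne_zero _ h1.1
  rw [ha, mul_div_cancel_right₀ _ hc] at h6
  exact ⟨a, _, h6⟩

theorem val_eq_one_of_mem_of_inv_mem {F : Type*} [Field F] (V : ValuationSubring F) {u : F}
    (hu : u ≠ 0) (h : u ∈ V) (h' : u⁻¹ ∈ V) : V.valuation u = 1 := by
  have h1 := (V.valuation_le_one_iff u).2 h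
  have h2 := (V.valuation_le_one_iff u⁻¹).2 h'
  rw [map_inv₀] at h2
  have h3 : V.valuation u ≠ 0 := (map_ne_zero _).2 hu
  exact le_antisymm h1 ((inv_le_one₀ (zero_lt_iff.2 h3)).1 h2)

/-- `T_ℓ x / x ^ (ℓ + 1)` is a unit of the Gauss valuation ring of `FN N`. -/
theorem hecke_div_mem_gauss {A : ValuationSubring Kbar} {q : ℕ} (hq : q.Prime)
    (hA : A.LiesOverPrime q) {N ℓ : ℕ} [NeZero ℓ] (H : HeckeOp N ℓ) {x : FN N} (hx : x ≠ 0)
    {G : ValuationSubring (FN N)} (hG : S44.X.Cover.IsGaussFN A N G) :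
    H.T x / x ^ (ℓ + 1) ∈ G ∧ (H.T x / x ^ (ℓ + 1))⁻¹ ∈ G := by
  obtain ⟨a, r, h⟩ := redS_hecke_div hq hA H hx
  refine ⟨(hG _).2 (S44.X.Cover.Hecke.IntS.of_redS h (a : A).2), (hG _).2 ?_⟩
  refine S44.X.Cover.Hecke.IntS.of_redS (c := (((a⁻¹ : Aˣ) : A) : Kbar)) (r := r⁻¹) ?_ ((a⁻¹ : Aˣ) : A).2
  have e : (((a⁻¹ : Aˣ) : A) : Kbar) = (((a : A) : Kbar))⁻¹ := by
    refine eq_inv_of_mul_eq_one_left ?_
    exact congrArg (Subtype.val : A → Kbar) a.inv_mul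
  rw [e]
  exact h.inv

/-- **Node VERT4.** -/
theorem nodeVert4 : NodeVert4 := by
  intro q _ L _ hq hc A _ hA ℓ _ hℓ hℓN H u₀ hu₀
  have hqL : ¬ q ∣ L := (Nat.Prime.coprime_iff_not_dvd hq).1 hc.symm
  obtain ⟨D⟩ := nonempty_alData L q hq hqL
  have hx0 : BAD.Bridge.bc A (L * q) u₀ ≠ 0 := (map_ne_zero _).2 hu₀
  generalize hx : BAD.Bridge.bc A (L * q) u₀ = x at hx0 ⊢
  have hxσ : ∀ σ ∈ A.inertiaSubgroupIn ℚ, galF (L * q) σ x = x := fun σ hσ =>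
    S36.Desc.galF_eq_of_K0_model (L * q) A x (u₀ : LaurentSeries (K0 A)) (by rw [← hx]; rfl) σ hσ
  have hfix : ∀ σ ∈ A.inertiaSubgroupIn ℚ,
      galF (L * q) σ (H.T x / x ^ (ℓ + 1)) = H.T x / x ^ (ℓ + 1) := by
    intro σ hσ
    rw [map_div₀, map_pow, H.galF_T, hxσ σ hσ]
  obtain ⟨y, hy, hyx⟩ := S36.Desc.exists_K0_model (L * q) A _ hfix
  have hb : S44.X.Cover.bcX (K0 A) (L * q) ⟨y, hy⟩ = H.T x / x ^ (ℓ + 1) := Subtype.ext hyx
  have hTx : H.T x ≠ 0 := ((IsUnit.mk0 x hx0).map H.T).ne_zero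
  have hy0 : (⟨y, hy⟩ : S18.FK (K0 A) (L * q)) ≠ 0 := by
    intro h0
    rw [h0, map_zero] at hb
    exact div_ne_zero hTx (pow_ne_zero _ hx0) hb.symm
  have hG := S44.X.Cover.Hecke.isGaussFN_gaussFN hq hA (L * q)
  have hφ : A.comap (algebraMap (K0 A) Kbar) = A0 A := rfl
  refine ⟨⟨y, hy⟩, hb, ?_, ?_⟩
  · obtain ⟨h1, h2⟩ := hecke_div_mem_gauss hq hA H hx0 hG
    refine val_eq_one_of_mem_of_inv_mem _ hy0 ?_ ?_
    · rw [S44.X.Model.mem_VV_zero_iff_bcX_mem hφ hc hG, hb]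
      exact h1
    · rw [S44.X.Model.mem_VV_zero_iff_bcX_mem hφ hc hG, map_inv₀, hb]
      exact h2
  · have hw0 : D.w x ≠ 0 := (map_ne_zero _).2 hx0
    obtain ⟨h1, h2⟩ := hecke_div_mem_gauss hq hA H hw0 hG
    have hw : D.w (H.T x / x ^ (ℓ + 1)) = H.T (D.w x) / D.w x ^ (ℓ + 1) := by
      rw [map_div₀, map_pow, S44.X.Cover.w_T hq hqL hℓ hℓN D H]
    refine val_eq_one_of_mem_of_inv_mem _ hy0 ?_ ?_
    · rw [S44.X.Model.mem_VV_one_iff_bcX_mem hφ hq hc D hG, hb]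
      show D.w (H.T x / x ^ (ℓ + 1)) ∈ S44.X.Cover.Hecke.gaussFN A hq hA (L * q)
      rw [hw]
      exact h1
    · rw [S44.X.Model.mem_VV_one_iff_bcX_mem hφ hq hc D hG, map_inv₀, hb]
      show D.w (H.T x / x ^ (ℓ + 1))⁻¹ ∈ S44.X.Cover.Hecke.gaussFN A hq hA (L * q)
      rw [map_inv₀, hw]
      exact h2

end Fermat.Agent.S43.E0.MazSlope

end
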