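import Fermat.Agent.S43.E0.Maz.Slope.Main
import Fermat.Agent.S43.E0.Maz.Slope.Vert4
import Fermat.Agent.S43.E0.Maz.Slope.DescQ

/-!
# S43 / E0 / design A: `NodeSlope` is closed

`nodeSlope : NodeSlope` (all odd primes `q`, all levels `M` prime to `q`).
-/

namespace Fermat.Agent.S43.E0.MazSlope

theorem nodeSlope : NodeSlope := nodeSlope_of nodeVert4 nodeDescQ

end Fermat.Agent.S43.E0.MazSlope
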