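/-
Row 37 (S43), block E0 (a), sub-block SLOPE (helper73): the local computation on the regular model.
A function over the inertia field, with horizontal divisor divisible by `n`, which is a unit for the two
vertical valuations, reduces on the component `Va` to a function with divisor divisible by `n`.
-/
import Fermat.Agent.S43.E0.Maz.Slope.Defs
import Fermat.Agent.S44.X.PL.Factor
import Fermat.Agent.S44.X.Red.API
import Fermat.Agent.S44.X.Red.Main
import Fermat.Agent.BAD.Bridge.BaseHyp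

set_option autoImplicit false

noncomputable section

namespace Fermat.Agent.S43.E0.MazSlope

open ModularCurve AlgebraicCurve Fermat.Agent.S24 Fermat.Agent.GAL Fermat.Agent.S44
  Fermat.Agent.S44.X Fermat.Agent.S44.X.Model Fermat.Agent.S44.PL Fermat.Agent.S18
  Fermat.Agent.BAD.LevelQ.Mod Fermat.Agent.Lib.InertiaField Fermat.Agent.S36.BP

variable {A : ValuationSubring S44.Qb} {q L : ℕ} [NeZero q] [NeZero L]
  {Va Vb : ValuationSubring (FK (K0 A) (L * q))}

theorem horDivAt_of_horDiv {R : Subring (FK (K0 A) (L * q))} {n : ℕ} {u : FK (K0 A) (L * q)}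
    (h : HorDiv (K0 A) n u) : HorDivAt (K0 A) R n u := fun W hW _ => h W hW

/-- local factorisation `u = ε g ^ n` at the points of the model. -/
theorem exists_factor (hq : q.Prime) (hA : A.LiesOverPrime q) {R : Subring (FK (K0 A) (L * q))}
    (hR : (∃ x y, IsNode (A0 A) q R Va Vb x y) ∨ IsSmooth (A0 A) q R Va) {n : ℕ}
    {u : FK (K0 A) (L * q)} (hu : u ≠ 0) (hd : HorDiv (K0 A) n u) (ha : Va.valuation u = 1)
    (hb : Vb.valuation u = 1) : ∃ g ε : FK (K0 A) (L * q), g ≠ 0 ∧ RUnit R ε ∧ u = ε * g ^ n := by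
  have hU := BAD.Bridge.isUnif_A0 A q hq hA
  rcases hR with ⟨x, y, hN⟩ | hS
  · obtain ⟨g, ε, hg, hε, e⟩ := hN.regPt.factor hU hu (horDivAt_of_horDiv hd) (fun _ => 0) (by
      rintro (_ | _)
      · simpa using hb
      · simpa using ha)
    exact ⟨g, ε, hg, hε, by simpa using e⟩
  · obtain ⟨g, ε, hg, hε, e⟩ := hS.regPt.factor hU hu (horDivAt_of_horDiv hd) (fun _ => 0) (by
      intro _
      simpa using ha)
    exact ⟨g, ε, hg, hε, by simpa using e⟩

/-- **SLOPE at level `L q`.** -/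
theorem slope4 (hq : q.Prime) (hqL : ¬ q ∣ L) (hA : A.LiesOverPrime q)
    (hmod : IsRegModel A q L Va Vb) {n : ℕ} {u : FK (K0 A) (L * q)} (hu : u ≠ 0)
    (hd : HorDiv (K0 A) n u) (ha : Va.valuation u = 1) (hb : Vb.valuation u = 1)
    (ubar : Fk A L) (hbar : IsRed A (BAD.Bridge.bc A (L * q) u) (ubar : LaurentSeries (kA A)))
    (w : Place (kA A) (Fk A L)) : (n : ℤ) ∣ w.ord ubar := by
  obtain ⟨R, hC, hR⟩ := hmod w
  obtain ⟨g, ε, hg, hε, e⟩ := exists_factor hq hA hR hu hd ha hb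
  have hg' : BAD.Bridge.bc A (L * q) g ≠ 0 := (map_ne_zero _).2 hg
  obtain ⟨gbar, hgbar⟩ := nodeRed q L hq hqL A hA _ hg'
  have hgb0 : gbar ≠ 0 := fun h => hgbar.ne_zero (by rw [h]; rfl)
  have hε' : BAD.Bridge.bc A (L * q) ε =
      BAD.Bridge.bc A (L * q) u / BAD.Bridge.bc A (L * q) g ^ n := by
    rw [e, map_mul, map_pow, mul_div_cancel_right₀ _ (pow_ne_zero n hg')]
  have h1 : IsRed A (BAD.Bridge.bc A (L * q) ε)
      ((ubar / gbar ^ n : Fk A L) : LaurentSeries (kA A)) := by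
    rw [hε']
    exact hbar.div (hgbar.pow n)
  have h2 := hC ε hε (ubar / gbar ^ n) h1
  have hub0 : ubar ≠ 0 := fun h => hbar.ne_zero (by rw [h]; rfl)
  rw [div_eq_mul_inv, Place.ord_mul _ hub0 (inv_ne_zero (pow_ne_zero n hgb0)), Place.ord_inv,
    FF.ord_pow] at h2
  exact ⟨w.ord gbar, by linarith⟩

end Fermat.Agent.S43.E0.MazSlope

end
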