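/-
Row 37 (S43), block E0 (a), sub-block SLOPE (helper73): ASSEMBLY
`NodeVert4 → NodeDescQ → NodeSlope` (the model: `ThreeE.slope_all`, helper21 / helper155).
-/
import Fermat.Agent.S43.E0.Maz.Slope.Four
import Fermat.Agent.BAD.Bridge.FixRep
import Fermat.Agent.BAD.Bridge.HorDiv
import Fermat.Agent.BAD.Bridge.LevelUp
import Fermat.Agent.S43.E0.ThreeE.Main

set_option autoImplicit false

noncomputable section

namespace Fermat.Agent.S43.E0.MazSlope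

open ModularCurve AlgebraicCurve Fermat.Agent.S24 Fermat.Agent.GAL Fermat.Agent.S44
  Fermat.Agent.S44.X Fermat.Agent.S44.X.Model Fermat.Agent.S44.PL Fermat.Agent.S18
  Fermat.Agent.BAD.LevelQ.Mod Fermat.Agent.Lib.InertiaField Fermat.Agent.S36.BP

/-- The Hecke operators commute with the change of level. -/
theorem levelIncl_T {N N' ℓ : ℕ} [NeZero N] [NeZero N'] [NeZero ℓ] (h : N ∣ N')
    (H : E.HeckeOp N ℓ) (H' : E.HeckeOp N' ℓ) (u : FN N) :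
    levelIncl h (H.T u) = H'.T (levelIncl h u) := by
  apply Subtype.ext
  apply (qExpand Kbar ℓ).injective
  rw [coe_levelIncl, H.qExpand_T, H'.qExpand_T, coe_levelIncl]

/-- `IsRed` does not depend on the level. -/
theorem isRed_levelIncl {A : ValuationSubring S44.Qb} {q : ℕ} (hq : q.Prime)
    (hA : A.LiesOverPrime q) {N N' : ℕ} [NeZero N] [NeZero N'] (h : N ∣ N') {u : FN N}
    {ubar : LaurentSeries (kA A)} (hu : IsRed A u ubar) : IsRed A (levelIncl h u) ubar := by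
  rw [isRed_iff hq hA] at hu ⊢
  rwa [coe_levelIncl]

theorem nodeSlope_of (hV : NodeVert4) (hD : NodeDescQ) : NodeSlope := by
  intro M q _ _ hq hq2 hqM A hA p k hp h5 hpq ℓ _ hℓ hℓ2 hℓN H u hu0 hkum hfix ubar hbar
  apply hD q M hq hq2 hqM A hA p k hp h5 ubar
  intro w
  have := isDiscreteValuationRing_A0 A q hq hA
  have hn0 : p ^ k ≠ 0 := pow_ne_zero k hp.ne_zero
  have hq4 : Nat.Coprime q 4 :=
    Nat.Coprime.pow_right 2 ((Nat.coprime_primes hq Nat.prime_two).2 hq2)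
  have hℓ4 : Nat.Coprime ℓ 4 :=
    Nat.Coprime.pow_right 2 ((Nat.coprime_primes hℓ Nat.prime_two).2 hℓ2)
  have hqL : ¬ q ∣ M * 4 := fun h => hqM (hq4.dvd_of_dvd_mul_right h)
  have hc : (M * 4).Coprime q := ((Nat.Prime.coprime_iff_not_dvd hq).2 hqL).symm
  have hdvd : M * q ∣ M * 4 * q := Nat.mul_dvd_mul_right (Nat.dvd_mul_right M 4) q
  have hℓL : ¬ ℓ ∣ M * 4 * q := by
    intro h
    apply hℓN
    have e : M * 4 * q = M * q * 4 := by ring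
    rw [e] at h
    exact hℓ4.dvd_of_dvd_mul_right h
  obtain ⟨H4⟩ := E.nonempty_heckeOp (M * 4 * q) ℓ hℓ hℓL
  set n := p ^ k with hn
  set u1 : FN (M * 4 * q) := levelIncl hdvd u with hu1def
  have hu1_0 : u1 ≠ 0 := (map_ne_zero _).mpr hu0
  have hkum1 : E.IsKum (M * 4 * q) n u1 := BAD.Bridge.isKum_levelIncl hdvd n u hkum
  have hfix1 : ∀ σ ∈ A.inertiaSubgroupIn ℚ,
      ∃ h : FN (M * 4 * q), E.galF _ σ u1 = u1 * h ^ n := by
    intro σ hσ
    obtain ⟨g, hg⟩ := hfix σ hσ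
    exact ⟨levelIncl hdvd g, by rw [hu1def, BAD.Bridge.galF_levelIncl, hg, map_mul, map_pow]⟩
  obtain ⟨u0, h, hu0', hh0, hu1⟩ :=
    BAD.Bridge.exists_fixed_rep A (M * 4 * q) n hn0 u1 hu1_0 hkum1 hfix1
  have hbc0 : BAD.Bridge.bc A (M * 4 * q) u0 ≠ 0 := (map_ne_zero _).2 hu0'
  have hbc : BAD.Bridge.bc A _ u0 = u1 / h ^ n := by
    rw [hu1]; field_simp
  have hkum0 : E.IsKum (M * 4 * q) n (BAD.Bridge.bc A _ u0) := by
    rw [hbc]; exact hkum1.div (E.isKum_pow_self _ _ h)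
  obtain ⟨u₁, hu₁, hva, hvb⟩ := hV q (M * 4) hq hc A hA ℓ hℓ hℓL H4 u0 hu0'
  have hT0 : ∀ x : FN (M * 4 * q), x ≠ 0 → H4.T x ≠ 0 := by
    intro x hx h0
    have h1 : H4.T x * H4.T x⁻¹ = 1 := by rw [← map_mul, mul_inv_cancel₀ hx, map_one]
    rw [h0, zero_mul] at h1
    exact zero_ne_one h1
  have hu₁0 : u₁ ≠ 0 := by
    rintro rfl
    rw [map_zero] at hva
    exact zero_ne_one hva
  have hkum₁ : E.IsKum (M * 4 * q) n (BAD.Bridge.bc A _ u₁) := by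
    rw [hu₁]; exact (H4.isKum n _ hkum0).div (hkum0.pow _)
  have hhor := BAD.Bridge.horDiv_of_isKum A (M * 4 * q) n u₁ hu₁0 hkum₁
  have hbc₁ : BAD.Bridge.bc A (M * 4 * q) u₁ ≠ 0 := (map_ne_zero _).2 hu₁0
  obtain ⟨u1bar, hu1bar⟩ := nodeRed q (M * 4) hq hqL A hA _ hbc₁
  have hx0 : xU q M hq4 ≠ 0 := Lib.EtaUnit.unitF_ne_zero Lib.EtaUnit.isW1_G4 _ _ _ _
  obtain ⟨xbar, hxbar⟩ := nodeRed q (M * 4) hq hqL A hA _ hx0
  have hsl : ((n : ℕ) : ℤ) ∣ w.ord u1bar := by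
    obtain ⟨h1, h2⟩ := ThreeE.slope_all hq hqM hq4 hc hA hn0 hu₁0 hhor (ai := 0) (a0 := 0)
      (by rw [hva, zpow_zero]) (by rw [hvb, zpow_zero]) (ubar := u1bar) hu1bar hxbar
    rcases lt_or_ge (w.ord (jk A (M * 4))) 0 with hw | hw
    · exact h2 w hw
    · simpa using h1 w hw
  -- the `n`-th power
  set G : FN (M * 4 * q) := H4.T h / h ^ (ℓ + 1) with hG
  have hG0 : G ≠ 0 := div_ne_zero (hT0 h hh0) (pow_ne_zero _ hh0)
  obtain ⟨Gbar, hGbar⟩ := nodeRed q (M * 4) hq hqL A hA G hG0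
  have e1 : levelIncl hdvd (H.T u / u ^ (ℓ + 1)) = BAD.Bridge.bc A _ u₁ * G ^ n := by
    rw [map_div₀, map_pow, levelIncl_T hdvd H H4, ← hu1def, hu1, map_mul, map_pow, hu₁, hG,
      div_pow, mul_pow, ← pow_mul, ← pow_mul, mul_comm n (ℓ + 1)]
    have h3 : (h ^ ((ℓ + 1) * n)) ≠ 0 := pow_ne_zero _ hh0
    have h4 : BAD.Bridge.bc A (M * 4 * q) u0 ^ (ℓ + 1) ≠ 0 := pow_ne_zero _ hbc0
    field_simp
  have h1 : IsRed A (BAD.Bridge.bc A _ u₁ * G ^ n) (ubar : LaurentSeries (kA A)) := by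
    rw [← e1]
    exact isRed_levelIncl hq hA hdvd hbar
  obtain ⟨a, ha, e2⟩ := (hu1bar.mul (hGbar.pow n)).unique h1
  have e3 : inclFk A M 4 ubar = algebraMap (kA A) (Fk A (M * 4)) a * (u1bar * Gbar ^ n) := by
    apply Subtype.ext
    rw [coe_inclFk, e2]
    show _ = algebraMap (kA A) (LaurentSeries (kA A)) a * _
    rw [algebraMap_laurentSeries_eq_single]
    rfl
  have hb1 : u1bar ≠ 0 := fun h => hu1bar.ne_zero (by rw [h]; rfl)
  have hb2 : Gbar ≠ 0 := fun h => hGbar.ne_zero (by rw [h]; rfl)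
  rw [e3, Place.ord_mul _ ((map_ne_zero _).2 ha) (mul_ne_zero hb1 (pow_ne_zero n hb2)),
    FF.ord_algebraMap, zero_add, Place.ord_mul _ hb1 (pow_ne_zero n hb2), FF.ord_pow]
  exact dvd_add hsl (Dvd.intro _ rfl)

end Fermat.Agent.S43.E0.MazSlope

end
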