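/-
Row 37 (S43), block E0 (a), sub-block SLOPE (architect helper73), leaf MODEL3: the regular model of level `4 M q` over the
inertia field for `q = 3` (base coordinate `h₂`, cusp dichotomy of helper103), for `q ≥ 5` (`S44.X.Model.isNodeModel`), hence
`nodeModelQ : NodeModelQ`.
-/
import Fermat.Agent.S43.E0.Maz.Slope.Defs
import Fermat.Agent.S43.E0.Three.ModelE

set_option autoImplicit false
set_option linter.unusedSectionVars false

noncomputable section

namespace Fermat.Agent.S43.E0.MazSlope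

open ModularCurve AlgebraicCurve Fermat.Agent.S24 Fermat.Agent.S18 Fermat.Agent.S36.Mod
  Fermat.Agent.BAD.LevelQ Fermat.Agent.BAD.LevelQ.Mod Fermat.Agent.Lib.EtaUnit
  Fermat.Agent.Lib.InertiaField Fermat.Agent.S36.BP Fermat.Agent.S44.X Fermat.Agent.S44.X.Model
  Fermat.Agent.S28.Export Fermat.Agent.Lib.Hauptmodul Fermat.Agent.S44.Depth.Inst
  Fermat.Agent.S43.E0.Three Fermat.Agent.BAD.Model Fermat.Agent.S44

section Abs

variable {K₀ F' F : Type*} [Field K₀] [Field F'] [Field F] [Algebra K₀ F'] [Algebra K₀ F]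
variable {A₀ : ValuationSubring K₀} {q : ℕ} {al be : F' →ₐ[K₀] F} {w : F ≃ₐ[K₀] F}
  {γ : F' →+* F'} {Ow' : ValuationSubring F'} {V : Fin 2 → ValuationSubring F} {x' : F'}
  {R : Subring F}
variable {x y J : F}

/-- classification (in the language of `S44/X/PL`) of the closed points lying on the component `V 0`, from the cusp
dichotomy. -/
theorem model3_classify_zero [CharZero K₀] (hac : IsAlgClosed (IsLocalRing.ResidueField A₀))
    (H : LQ A₀ (q : K₀) q al be w γ Ow' V x')
    (E : Eta (q : F) V x y) (C : CuspDich A₀ (q : K₀) V (xx al be x') J x y)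
    (hR : IsModelPt A₀ (q : K₀) (xx al be x') R) (h0 : ∀ r ∈ R, r ∈ V 0) :
    PL.IsNode A₀ q R (V 0) (V 1) x y ∨ PL.IsSmooth A₀ q R (V 0) := by
  have hpt : IsPt A₀ R := hR.isPt H.mChart hac
  have hB : PtBaseM A₀ (q : K₀) V R := hR.ptBaseM H.mChart
  have hU := H.unif_all
  have E' : Eta (algebraMap K₀ F (q : K₀)) V x y := by rw [map_natCast]; exact E
  have hT0 : Through R (V 0) := H.through hac hR 0 (hB.leLoc_of_le h0)
  have hnA0 : ¬ Away R (V 0) := by
    rintro ⟨e, he, hlt⟩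
    exact absurd hlt (he.val_eq_one h0).not_lt
  have hsm : Away R (V 1) → PL.IsSmooth A₀ q R (V 0) := fun hA =>
    { pt := hpt
      thr := hT0
      unif := H.unifF 0
      princ := fun r hr hv => by
        have := hB.princ_smooth hU 0 (fun c' hc' => by
          have : c' = 1 := by omega
          rw [this]; exact hA) r hr hv
        rwa [map_natCast] at this }
  rcases C R hR with ⟨-, hxR, hyR⟩ | ⟨-, hA⟩
  · rcases hB.leLoc_or_away 1 with hL | hA
    · left
      exact
        { pt := hpt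
          thr_a := hT0
          thr_b := H.through hac hR 1 hL
          unif_a := H.unifF 0
          unif_b := H.unifF 1
          x_mem := hxR
          y_mem := hyR
          mul_eq := E.mul_eq
          x_unit := E.x_unit
          y_unit := E.y_unit
          princ_a := hB.princ_zero hU E' hxR
          princ_b := hB.princ_one hU E' hyR }
    · exact Or.inr (hsm hA)
  · exact Or.inr (hsm (hA.resolve_left hnA0))

end Abs

variable {A : ValuationSubring S44.Qb}

/-- **The regular model for `q = 3`.** -/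
theorem isRegModel_three (M : ℕ) [NeZero M] (h3 : ¬ 3 ∣ M) (hc : (M * 4).Coprime 3)
    (A : ValuationSubring S44.Qb) [IsDiscreteValuationRing (A0 A)] (hA : A.LiesOverPrime 3) :
    IsRegModel A 3 (M * 4) (VV (A0 A) hc 0) (VV (A0 A) hc 1) := by
  have hq : Nat.Prime 3 := Nat.prime_three
  have hc4 : Nat.Coprime 3 4 := by norm_num
  have hqM : ¬ 3 ∣ M * 4 := fun h => h3 (hc4.dvd_of_dvd_mul_right h)
  have hN : 4 * 3 ∣ M * 4 * 3 := ⟨M, by ring⟩
  have h4 : 4 ∣ M * 4 := Dvd.intro_left M rfl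
  have h2 : 2 ∣ M * 4 := Dvd.dvd.mul_left (by norm_num) M
  obtain ⟨D, hX, hDbar⟩ := S34.Nodal.Inst.Base.exists_baseData_h2 (M * 4) h2
  have hB : S34.Nodal.Inst.BaseOK (M * 4) 3 (D.xK Kbar) := by
    rw [hDbar]
    exact S34.Nodal.Inst.Ord.baseOK_h2 hq h2 (by norm_num)
  obtain ⟨γ₀, -, H⟩ := lq_inertia A hq hA hc D (beInt_of_baseOK D hB)
  have hj := jK_mul_xK (K0 A) hX
  have h256 : (A0 A).valuation (256 : K0 A) = 1 := val_256 (by simpa using H.char)
  obtain ⟨c', h0, hrel⟩ := exists_rel_j (K := K0 A) (M := M * 4) hq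
  have C := cuspQ_j H (a := 256) ((ValuationSubring.valuation_le_one_iff _ _).1 h256.le)
    (by rw [map_ofNat, map_ofNat]) hj (fun a b => intCast_mem (A0 A) _)
    (by rw [h0]; simp) hrel
  have E := etaW1 isW1_G4 hc4 h4 hc hN (A₀ := A0 A) (K := K0 A)
  have hac := isAlgClosed_residueField_A0 A 3 hq hA
  have CD := cuspDich hac H h256 hj C (x_mem_VV isW1_G4 hc4 h4 hc hN)
    (y_mem_VV isW1_G4 hc4 h4 hc hN) (x_mem_top isW1_G4 hc4 hN) (y_mem_top isW1_G4 hc4 hN)
  intro w
  obtain ⟨R, hR, hdom⟩ := H.mChart.proper (VVw (comap_A0 A) hq hA hqM w)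
    (const_mem_VVw (comap_A0 A) hq hA hqM w) 0 (VVw_le (comap_A0 A) hq hA hqM w)
    (VVw_ne (comap_A0 A) hq hA hqM w (resFieldMap_surjective hq hA))
  refine ⟨R, centred_of_dominates (comap_A0 A) hq hA hqM w hdom, ?_⟩
  rcases model3_classify_zero hac H E CD hR
    (fun r hr => VVw_le (comap_A0 A) hq hA hqM w (hdom.1 r hr)) with hn | hs
  · exact Or.inl ⟨_, _, hn⟩
  · exact Or.inr hs

/-- **The regular model for `q ≥ 5`.** -/
theorem isRegModel_of_five_le (q : ℕ) [NeZero q] (M : ℕ) [NeZero M] (hq : q.Prime) (h5 : 5 ≤ q)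
    (hqM' : ¬ q ∣ M) (hc : (M * 4).Coprime q)
    (A : ValuationSubring S44.Qb) [IsDiscreteValuationRing (A0 A)] (hA : A.LiesOverPrime q) :
    IsRegModel A q (M * 4) (VV (A0 A) hc 0) (VV (A0 A) hc 1) := by
  have hc4 : Nat.Coprime q 4 := (Nat.Coprime.coprime_mul_left hc).symm
  have hqM : ¬ q ∣ M * 4 := fun h => hqM' (hc4.dvd_of_dvd_mul_right h)
  have hN : 4 * q ∣ M * 4 * q := ⟨M, by ring⟩
  have h4 : 4 ∣ M * 4 := Dvd.intro_left M rfl
  intro w
  obtain ⟨R, -, hcen, h1, h2⟩ := exists_ptAt hq h5 hqM h4 hA hc hc4 hN w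
  refine ⟨R, hcen, ?_⟩
  by_cases hw : 0 ≤ w.ord (jk A (M * 4))
  · rcases h1 hw with hn | ⟨hs, -⟩
    · exact Or.inl ⟨_, _, hn⟩
    · exact Or.inr hs
  · exact Or.inr (h2 (not_le.1 hw))

/-- **Node MODEL-Q.** -/
theorem nodeModelQ : NodeModelQ := by
  intro q _ M _ hq hq2 hqM hc A _ hA
  by_cases h3 : q = 3
  · subst h3
    exact isRegModel_three M hqM hc A hA
  · refine isRegModel_of_five_le q M hq ?_ hqM hc A hA
    have h2 := hq.two_le
    by_contra hlt
    have : q = 4 := by omega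
    subst this
    exact absurd hq (by norm_num)

end Fermat.Agent.S43.E0.MazSlope

end
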